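import Fermat.Agent.HarringtonKechrisLouveau.Separation

/-!
# Approximations of Miller's homomorphisms

Level `n` carries a finite tree on `2^n`: at each level one edge joins the two copies of the
previous tree, and its label says whether its ends are to be related.  A set of configurations is
small when countably many invariant Borel sets make the relation smooth on it.
-/

set_option autoImplicit false

universe u

namespace FA.HarringtonKechrisLouveau

open Set Topology Filter MeasureTheory

/-- The first `n` values from `p`, the others from `z`. -/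
def setPre (p : ℕ → Bool) (n : ℕ) (z : ℕ → Bool) : ℕ → Bool :=
  fun i => if i < n then p i else z i

/-- The data of a level: its label and its two words. -/
def levelData (n : ℕ) : Bool × List Bool × List Bool :=
  (Encodable.decode (α := Bool × List Bool × List Bool) (Nat.unpair n).2).getD (true, [], [])

/-- Whether the edge of a level is to join related points. -/
def label (n : ℕ) : Bool :=
  (levelData n).1

/-- The end of the edge of level `n` in either copy: a word of length `n + 1`. -/
def endWord (n : ℕ) (t : Bool) (i : ℕ) : Bool :=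
  if i < n then (cond t (levelData n).2.2 (levelData n).2.1).getD i false else t

theorem endWord_self (n : ℕ) (t : Bool) : endWord n t n = t :=
  if_neg (lt_irrefl n)

/-- Every label and pair of words is extended by some level. -/
theorem exists_level (e : Bool) (m : ℕ) (p q : ℕ → Bool) :
    ∃ n, m ≤ n ∧ label n = e ∧ (∀ i < m, endWord n false i = p i) ∧
      ∀ i < m, endWord n true i = q i := by
  let n := Nat.pair m (Encodable.encode (e, (List.range m).map p, (List.range m).map q))
  have hn : levelData n = (e, (List.range m).map p, (List.range m).map q) := by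
    simp only [levelData, n, Nat.unpair_pair, Encodable.encodek, Option.getD_some]
  refine ⟨n, Nat.left_le_pair _ _, by simp [label, hn], fun i hi => ?_, fun i hi => ?_⟩ <;>
  · rw [endWord, if_pos (hi.trans_le (Nat.left_le_pair _ _ : m ≤ n)), hn]
    simp [List.getD_eq_getElem?_getD, hi]

/-- An end of the edge of level `n` above a sequence. -/
def endPoint (n : ℕ) (t : Bool) (z : ℕ → Bool) : ℕ → Bool :=
  setPre (endWord n t) (n + 1) z

/-- An edge of level `n`, given by its level and any word giving its last letters. -/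
abbrev Edge (n : ℕ) : Type :=
  Fin n × (Fin n → Bool)

/-- The end of an edge in either copy. -/
def Edge.vertex {n : ℕ} (e : Edge n) (t : Bool) (i : Fin n) : Bool :=
  if i ≤ e.1 then endWord e.1 t i else e.2 i

/-- An approximation at level `n`. -/
abbrev Approx (n : ℕ) : Type :=
  ((Fin n → Bool) → Fin n → ℕ) × (Edge n → Fin n → ℕ)

/-- A configuration at level `n`. -/
abbrev Config (n : ℕ) : Type :=
  ((Fin n → Bool) → ℕ → ℕ) × (Edge n → ℕ → ℕ)

/-- One step finer. -/
def Extends {n : ℕ} (a : Approx n) (b : Approx (n + 1)) : Prop :=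
  (∀ u i, b.1 u (Fin.castSucc i) = a.1 (Fin.init u) i) ∧
    ∀ e : Edge n, ∀ t i, b.2 (e.1.castSucc, Fin.snoc e.2 t) (Fin.castSucc i) = a.2 e i

variable {X : Type u}

/-- Configurations matching an approximation. -/
def configs (Φ : Bool → (ℕ → ℕ) → X × X) (ψ : (ℕ → ℕ) → X) {n : ℕ} (a : Approx n) :
    Set (Config n) :=
  {γ | (∀ u (i : Fin n), γ.1 u i = a.1 u i) ∧ (∀ e (i : Fin n), γ.2 e i = a.2 e i) ∧
    ∀ e : Edge n, Φ (label e.1) (γ.2 e) = (ψ (γ.1 (e.vertex false)), ψ (γ.1 (e.vertex true)))}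

/-- Points not separated by a countable family. -/
def Sim (B : ℕ → Set X) (x y : X) : Prop :=
  ∀ k, (x ∈ B k ↔ y ∈ B k)

theorem Sim.refl (B : ℕ → Set X) (x : X) : Sim B x x := fun _ => Iff.rfl

theorem Sim.symm {B : ℕ → Set X} {x y : X} (h : Sim B x y) : Sim B y x := fun k => (h k).symm

theorem Sim.trans {B : ℕ → Set X} {x y z : X} (h : Sim B x y) (h' : Sim B y z) : Sim B x z :=
  fun k => (h k).trans (h' k)

variable (s : Setoid X)

/-- The points whose block for the family is not a single class. -/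
def mixed (B : ℕ → Set X) : Set X :=
  {x | ∃ y, Sim B y x ∧ ¬s y x}

/-- A configuration inside one block which is not a single class. -/
def good (ψ : (ℕ → ℕ) → X) {n : ℕ} (B : ℕ → Set X) : Set (Config n) :=
  {γ | (∀ u, Sim B (ψ (γ.1 u)) (ψ (γ.1 fun _ => false))) ∧
    ψ (γ.1 fun _ => false) ∈ mixed s B}

/-- A set of configurations on which the relation is smooth. -/
def Small [MeasurableSpace X] (ψ : (ℕ → ℕ) → X) {n : ℕ} (S : Set (Config n)) : Prop :=
  ∃ B : ℕ → Set X, (∀ k, MeasurableSet (B k) ∧ IsInvariant s (B k)) ∧ ∀ γ ∈ S, γ ∉ good s ψ B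

variable {s}

theorem sim_of_rel {B : ℕ → Set X} (hB : ∀ k, IsInvariant s (B k)) {x y : X} (h : s x y) :
    Sim B x y :=
  fun k => hB k x y h

theorem good_anti {ψ : (ℕ → ℕ) → X} {n : ℕ} {B B' : ℕ → Set X} (h : ∀ k, ∃ j, B' j = B k) :
    (good s ψ B' : Set (Config n)) ⊆ good s ψ B := by
  have hsim : ∀ x y, Sim B' x y → Sim B x y := fun x y hxy k => by
    obtain ⟨j, hj⟩ := h k
    rw [← hj]
    exact hxy j
  rintro γ ⟨h1, y, hy, hns⟩
  exact ⟨fun u => hsim _ _ (h1 u), y, hsim _ _ hy, hns⟩

variable [TopologicalSpace X] [PolishSpace X] [MeasurableSpace X] [BorelSpace X]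

omit [TopologicalSpace X] [PolishSpace X] [BorelSpace X] in
/-- Small sets form a sigma-ideal. -/
theorem small_iUnion {ψ : (ℕ → ℕ) → X} {n : ℕ} {ι : Type*} [Countable ι]
    {S : ι → Set (Config n)} (h : ∀ i, Small s ψ (S i)) : Small s ψ (⋃ i, S i) := by
  choose B hB hS using h
  rcases isEmpty_or_nonempty ι with hι | hι
  · exact ⟨fun _ => univ, fun _ => ⟨MeasurableSet.univ, fun _ _ _ => Iff.rfl⟩,
      fun γ hγ => isEmptyElim (mem_iUnion.1 hγ).choose⟩
  obtain ⟨g, hg⟩ := exists_surjective_nat (ι × ℕ)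
  refine ⟨fun k => B (g k).1 (g k).2, fun k => hB _ _, fun γ hγ hgood => ?_⟩
  obtain ⟨i, hi⟩ := mem_iUnion.1 hγ
  refine hS i γ hi (good_anti (fun k => ?_) hgood)
  obtain ⟨j, hj⟩ := hg (i, k)
  exact ⟨j, by simp only [hj]⟩

omit [TopologicalSpace X] [PolishSpace X] [BorelSpace X] in
theorem measurableSet_sim {Z : Type*} [MeasurableSpace Z] {B : ℕ → Set X}
    (hB : ∀ k, MeasurableSet (B k)) {f g : Z → X} (hf : Measurable f) (hg : Measurable g) :
    MeasurableSet {z | Sim B (f z) (g z)} := by
  simp only [Sim, ofPred_forall]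
  refine MeasurableSet.iInter fun k => ?_
  convert ((hf (hB k)).inter (hg (hB k))).union ((hf (hB k)).compl.inter (hg (hB k)).compl) using 1
  ext z
  simp only [mem_ofPred_eq, mem_union, mem_inter_iff, mem_preimage, mem_compl_iff]
  tauto

omit [TopologicalSpace X] [PolishSpace X] [BorelSpace X] in
theorem measurableSet_sim_rel (hs : MeasurableSet {p : X × X | s p.1 p.2}) {B : ℕ → Set X}
    (hB : ∀ k, MeasurableSet (B k)) :
    MeasurableSet {p : X × X | Sim B p.2 p.1 ∧ ¬s p.2 p.1} :=
  (measurableSet_sim hB measurable_snd measurable_fst).inter (measurable_swap hs).compl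

theorem analyticSet_good (hs : MeasurableSet {p : X × X | s p.1 p.2}) {ψ : (ℕ → ℕ) → X}
    (hψ : Continuous ψ) {Φ : Bool → (ℕ → ℕ) → X × X} (hΦ : ∀ t, Continuous (Φ t)) {n : ℕ}
    (a : Approx n) {B : ℕ → Set X} (hB : ∀ k, MeasurableSet (B k)) :
    AnalyticSet (configs Φ ψ a ∩ good s ψ B) := by
  borelize (Config n)
  have : PolishSpace (Config n) := ⟨⟩
  have hcl : IsClosed (configs Φ ψ a) := by
    simp only [configs, ofPred_and, ofPred_forall]
    refine IsClosed.inter (isClosed_iInter fun u => isClosed_iInter fun i => ?_)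
      (IsClosed.inter (isClosed_iInter fun e => isClosed_iInter fun i => ?_)
        (isClosed_iInter fun e => ?_))
    · exact isClosed_eq (by fun_prop) continuous_const
    · exact isClosed_eq (by fun_prop) continuous_const
    · exact isClosed_eq ((hΦ _).comp (by fun_prop)) (by fun_prop)
  have hv : ∀ u, Continuous fun γ : Config n => ψ (γ.1 u) := fun u => by fun_prop
  have hsim : MeasurableSet {γ : Config n | ∀ u, Sim B (ψ (γ.1 u)) (ψ (γ.1 fun _ => false))} := by
    rw [ofPred_forall]
    exact MeasurableSet.iInter fun u =>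
      measurableSet_sim hB (hv u).measurable (hv _).measurable
  have hmixed : AnalyticSet (mixed s B) := by
    convert (measurableSet_sim_rel hs hB).analyticSet.image_of_continuous continuous_fst using 1
    ext x
    simp [mixed]
  have e : configs Φ ψ a ∩ good s ψ B =
      (configs Φ ψ a ∩ {γ : Config n | ∀ u, Sim B (ψ (γ.1 u)) (ψ (γ.1 fun _ => false))}) ∩
        (fun γ : Config n => ψ (γ.1 fun _ => false)) ⁻¹' mixed s B := by
    ext γ
    simp only [good, mem_inter_iff, mem_ofPred_eq, mem_preimage]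
    tauto
  rw [e, inter_eq_iInter]
  exact AnalyticSet.iInter fun b => by
    cases b
    exacts [hmixed.preimage (hv _), (hcl.measurableSet.inter hsim).analyticSet]

theorem vertex_castSucc {n : ℕ} (e : Edge (n + 1)) (h : (e.1 : ℕ) < n) (t : Bool) :
    Fin.init (e.vertex t) = Edge.vertex (⟨e.1, h⟩, Fin.init e.2) t ∧
      e.vertex t (Fin.last n) = e.2 (Fin.last n) := by
  refine ⟨funext fun i => ?_, ?_⟩
  · simp [Edge.vertex, Fin.init, Fin.le_def]
  · exact if_neg fun hle => (lt_irrefl n) (lt_of_le_of_lt hle h)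

theorem vertex_last {n : ℕ} (e : Edge (n + 1)) (h : ¬(e.1 : ℕ) < n) (t : Bool) :
    Fin.init (e.vertex t) = (fun i : Fin n => endWord n t i) ∧ e.vertex t (Fin.last n) = t := by
  have hn : (e.1 : ℕ) = n := le_antisymm (Nat.lt_succ_iff.1 e.1.2) (not_lt.1 h)
  refine ⟨funext fun i => ?_, ?_⟩
  · simp [Edge.vertex, Fin.init, Fin.le_def, hn, i.2.le]
  · simp [Edge.vertex, Fin.le_def, hn, endWord_self]

/-- **The splitting lemma.** A large set of configurations has a large refinement. -/
theorem exists_extension (hs : MeasurableSet {p : X × X | s p.1 p.2}) {ψ : (ℕ → ℕ) → X}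
    (hψ : Continuous ψ) {Φ : Bool → (ℕ → ℕ) → X × X} (hΦ : ∀ t, Continuous (Φ t))
    (hrange : ∀ t x y, (x, y) ∈ range (Φ t) ↔ (s x y ↔ t = true)) {n : ℕ} {a : Approx n}
    (ha : ¬Small s ψ (configs Φ ψ a)) :
    ∃ b, Extends a b ∧ ¬Small s ψ (configs Φ ψ b) := by
  by_contra! hall
  have : Countable {b : Approx (n + 1) // Extends a b} := inferInstance
  obtain ⟨B, hB, hbad⟩ := small_iUnion fun b : {b : Approx (n + 1) // Extends a b} => hall b.1 b.2
  have hBi : ∀ k, IsInvariant s (B k) := fun k => (hB k).2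
  let P := (fun γ : Config n => ψ (γ.1 fun i => endWord n false i)) ''
    (configs Φ ψ a ∩ good s ψ B)
  let Q := (fun γ : Config n => ψ (γ.1 fun i => endWord n true i)) ''
    (configs Φ ψ a ∩ good s ψ B)
  -- two good configurations cannot be joined
  have hkey : ∀ x ∈ P, ∀ y ∈ Q, Sim B x y → ¬(s x y ↔ label n = true) := by
    rintro _ ⟨γ₀, ⟨h₀, hg₀⟩, rfl⟩ _ ⟨γ₁, ⟨h₁, hg₁⟩, rfl⟩ hsim hlab
    obtain ⟨w, hw⟩ := (hrange _ _ _).2 hlab
    let γ : Bool → Config n := fun t => cond t γ₁ γ₀
    have hγ : ∀ t, γ t ∈ configs Φ ψ a := fun t => by cases t <;> assumption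
    let δ : Config (n + 1) := (fun z => (γ (z (Fin.last n))).1 (Fin.init z), fun e =>
      if he : (e.1 : ℕ) < n then (γ (e.2 (Fin.last n))).2 (⟨e.1, he⟩, Fin.init e.2) else w)
    let b : Approx (n + 1) := (fun u i => δ.1 u i, fun e i => δ.2 e i)
    have hb : Extends a b := by
      refine ⟨fun u i => (hγ _).1 _ i, fun e t i => ?_⟩
      have he : ((e.1.castSucc : Fin (n + 1)) : ℕ) < n := e.1.2
      change δ.2 (e.1.castSucc, Fin.snoc e.2 t) (i : ℕ) = a.2 e i
      simp only [δ, dif_pos he, Fin.snoc_last, Fin.init_snoc]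
      exact (hγ _).2.1 e i
    have hmem : δ ∈ configs Φ ψ b := by
      refine ⟨fun _ _ => rfl, fun _ _ => rfl, fun e => ?_⟩
      simp only [δ]
      by_cases he : (e.1 : ℕ) < n
      · rw [dif_pos he, (vertex_castSucc e he false).1, (vertex_castSucc e he false).2,
          (vertex_castSucc e he true).1, (vertex_castSucc e he true).2]
        exact (hγ _).2.2 (⟨e.1, he⟩, Fin.init e.2)
      · have hn : (e.1 : ℕ) = n := le_antisymm (Nat.lt_succ_iff.1 e.1.2) (not_lt.1 he)
        rw [dif_neg he, (vertex_last e he false).1, (vertex_last e he false).2,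
          (vertex_last e he true).1, (vertex_last e he true).2, hn]
        exact hw
    have h10 : Sim B (ψ (γ₁.1 fun _ => false)) (ψ (γ₀.1 fun _ => false)) :=
      ((hg₁.1 _).symm.trans hsim.symm).trans (hg₀.1 _)
    refine hbad δ (mem_iUnion.2 ⟨⟨b, hb⟩, hmem⟩) ⟨fun z => ?_, hg₀.2⟩
    change Sim B (ψ ((γ (z (Fin.last n))).1 (Fin.init z))) (ψ (γ₀.1 fun _ => false))
    cases z (Fin.last n)
    exacts [hg₀.1 _, (hg₁.1 _).trans h10]
  have hPan : AnalyticSet P :=
    (analyticSet_good hs hψ hΦ a fun k => (hB k).1).image_of_continuous (by fun_prop)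
  have hQan : AnalyticSet Q :=
    (analyticSet_good hs hψ hΦ a fun k => (hB k).1).image_of_continuous (by fun_prop)
  -- one more invariant set makes the configurations small
  have hadd : ∀ B₀ : Set X, MeasurableSet B₀ → IsInvariant s B₀ →
      (∀ γ ∈ configs Φ ψ a ∩ good s ψ B,
        γ ∈ good s ψ (fun k => Nat.casesOn k B₀ B) → False) → False := fun B₀ hm hi h =>
    ha ⟨fun k => Nat.casesOn k B₀ B,
      fun k => match k with
        | 0 => ⟨hm, hi⟩
        | k + 1 => hB k,
      fun γ hγ hg => h γ ⟨hγ, good_anti (fun k => ⟨k + 1, rfl⟩) hg⟩ hg⟩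
  cases hlab : label n with
  | true =>
    obtain ⟨B₀, hm, hi, hPB, hQB⟩ := exists_invariant_separation hs hPan hQan
      fun x hx y hy hxy => hkey x hx y hy (sim_of_rel hBi hxy) (by simp [hxy, hlab])
    refine hadd B₀ hm hi fun γ hγ hg => Set.disjoint_left.1 hQB ?_ ⟨γ, hγ, rfl⟩
    exact (((hg.1 fun i : Fin n => endWord n false i).trans
      (hg.1 fun i : Fin n => endWord n true i).symm) 0).1 (hPB ⟨γ, hγ, rfl⟩)
  | false =>
    have hrel : ∀ x ∈ P, ∀ y ∈ Q, Sim B x y → s x y := fun x hx y hy h => by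
      simpa [hlab] using hkey x hx y hy h
    have hRan : AnalyticSet {y | ∃ x ∈ P, (x, y) ∈ {p : X × X | Sim B p.2 p.1 ∧ ¬s p.2 p.1}} :=
      analyticSet_relImage (measurableSet_sim_rel hs fun k => (hB k).1).analyticSet hPan
    obtain ⟨B₀, hm, hi, hPB, hQB⟩ := exists_invariant_separation hs hPan hRan <| by
      rintro x' hx' y ⟨x, ⟨γ, hγ, rfl⟩, hyx, hns⟩ hx'y
      have hpq : Sim B (ψ (γ.1 fun i : Fin n => endWord n false i))
          (ψ (γ.1 fun i : Fin n => endWord n true i)) := (hγ.2.1 _).trans (hγ.2.1 _).symm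
      refine hns (s.trans (s.symm hx'y) (s.trans (hrel x' hx' _ ⟨γ, hγ, rfl⟩ ?_)
        (s.symm (hrel _ ⟨γ, hγ, rfl⟩ _ ⟨γ, hγ, rfl⟩ hpq))))
      exact ((sim_of_rel hBi hx'y).trans hyx).trans hpq
    refine hadd B₀ hm hi fun γ hγ hg => ?_
    obtain ⟨hall', y, hy, hns⟩ := hg
    let p := ψ (γ.1 fun i : Fin n => endWord n false i)
    -- a witness not related to `p` but in its block
    obtain ⟨y', hy', hns'⟩ : ∃ y', Sim (fun k => Nat.casesOn k B₀ B) y' p ∧ ¬s y' p := by
      by_cases hyp : s y p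
      · exact ⟨_, (hall' _).symm, fun h => hns (s.trans hyp (s.symm h))⟩
      · exact ⟨y, hy.trans (hall' _).symm, hyp⟩
    exact Set.disjoint_left.1 hQB ((hy' 0).2 (hPB ⟨γ, hγ, rfl⟩))
      ⟨p, ⟨γ, hγ, rfl⟩, fun k => hy' (k + 1), hns'⟩

end FA.HarringtonKechrisLouveau
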