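import Fermat.Agent.HarringtonKechrisLouveau.Meagre

/-!
# Embedding eventual agreement

A Mycielski scheme whose words at one level differ only by finitely many moves along edges
labelled "related" turns a homomorphism into a continuous injective reduction of `E_0`.
-/

set_option autoImplicit false

universe u

namespace FA.HarringtonKechrisLouveau

open Set Topology Filter MeasureTheory PiNat FA.SilverDichotomy FA.BorelCombinatorics

variable {X : Type u} {s : Setoid X} {h : (ℕ → Bool) → X}

/-- A level of the scheme: a length and a word for each node, any two giving related points with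
any common tail. -/
structure Level (s : Setoid X) (h : (ℕ → Bool) → X) (n : ℕ) where
  len : ℕ
  le_len : n ≤ len
  word : (Fin n → Bool) → ℕ → Bool
  rel : ∀ t t' z, s (h (setPre (word t) len z)) (h (setPre (word t') len z))

/-- The next level copies each word with one of two suffixes, and words with different suffixes
lie in the given relation. -/
def Refine (D : Set ((ℕ → Bool) × (ℕ → Bool))) {n : ℕ} (S : Level s h n) (S' : Level s h (n + 1)) :
    Prop :=
  S.len ≤ S'.len ∧
    (∃ u : Bool → ℕ → Bool,
      ∀ t, S'.word t = setPre (S.word (Fin.init t)) S.len (u (t (Fin.last n)))) ∧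
    ∀ t t', t (Fin.last n) ≠ t' (Fin.last n) →
      cylinder (S'.word t) S'.len ×ˢ cylinder (S'.word t') S'.len ⊆ D

theorem exists_refine (hh : ∀ n z, label n = true →
    s (h (endPoint n false z)) (h (endPoint n true z)))
    {D : Set ((ℕ → Bool) × (ℕ → Bool))} (hDo : IsOpen D) (hDd : Dense D)
    (hsymm : ∀ p ∈ D, p.swap ∈ D) {n : ℕ} (S : Level s h n) :
    ∃ S' : Level s h (n + 1), Refine D S S' := by
  classical
  let f : (Fin n → Bool) × (Fin n → Bool) → (ℕ → Bool) × (ℕ → Bool) → (ℕ → Bool) × (ℕ → Bool) :=
    fun e => Prod.map (setPre (S.word e.1) S.len) (setPre (S.word e.2) S.len)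
  have hW : ∀ e, IsOpen (f e ⁻¹' D) ∧ Dense (f e ⁻¹' D) := fun e =>
    ⟨hDo.preimage ((continuous_setPre _ _).prodMap (continuous_setPre _ _)),
      hDd.preimage ((isOpenMap_setPre _ _).prodMap (isOpenMap_setPre _ _))⟩
  have hall : IsOpen (⋂ e, f e ⁻¹' D) ∧ Dense (⋂ e, f e ⁻¹' D) :=
    ⟨isOpen_iInter_of_finite fun e => (hW e).1,
      dense_iInter_of_isOpen (fun e => (hW e).1) fun e => (hW e).2⟩
  obtain ⟨⟨a₀, a₁⟩, ha⟩ := hall.2.nonempty
  obtain ⟨U, V, hU, hV, haU, haV, hsub⟩ := isOpen_prod_iff.1 hall.1 a₀ a₁ ha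
  obtain ⟨m₀, hm₀⟩ := exists_node_subset hU haU
  obtain ⟨m₁, hm₁⟩ := exists_node_subset hV haV
  let m := max (max m₀ m₁) (max (n + 1) S.len)
  let w₀ := S.word fun _ => false
  obtain ⟨l, hml, hlab, hl₀, hl₁⟩ :=
    exists_level true m (setPre w₀ S.len a₀) (setPre w₀ S.len a₁)
  let u : Bool → ℕ → Bool := fun t => setPre (cond t a₁ a₀) m (endWord l t)
  have hlen : S.len ≤ l + 1 :=
    ((le_max_right _ _).trans (le_max_right _ _)).trans (hml.trans (Nat.le_succ l))
  have hgood : ∀ t t' : Fin n → Bool, ∀ y y',
      y ∈ cylinder (setPre (S.word t) S.len (u false)) (l + 1) →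
      y' ∈ cylinder (setPre (S.word t') S.len (u true)) (l + 1) → (y, y') ∈ D := by
    intro t t' y y' hy hy'
    have key : ∀ (b : Bool) (w : ℕ → Bool) (x : ℕ → Bool),
        x ∈ cylinder (setPre w S.len (u b)) (l + 1) →
        setPre w S.len (setPre (cond b a₁ a₀) m x) = x := by
      intro b w x hx
      funext i
      by_cases hi : i < S.len
      · rw [setPre, if_pos hi, hx i (hi.trans_le hlen), setPre, if_pos hi]
      · by_cases hi' : i < m
        · rw [setPre, if_neg hi, setPre, if_pos hi',
            hx i (hi'.trans_le (hml.trans (Nat.le_succ l))), setPre, if_neg hi]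
          simp [u, setPre, hi']
        · simp [setPre, hi, hi']
    have hmem : (setPre a₀ m y, setPre a₁ m y') ∈ ⋂ e, f e ⁻¹' D :=
      hsub ⟨hm₀ fun i hi => if_pos (lt_max_of_lt_left (lt_max_of_lt_left hi)),
        hm₁ fun i hi => if_pos (lt_max_of_lt_left (lt_max_of_lt_right hi))⟩
    have h2 := mem_iInter.1 hmem (t, t')
    rw [mem_preimage] at h2
    have h0 := key false (S.word t) y hy
    have h1 := key true (S.word t') y' hy'
    simp only [cond_false, cond_true] at h0 h1
    simpa only [f, Prod.map, h0, h1] using h2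
  have hedge : ∀ (b : Bool) (z : ℕ → Bool),
      setPre w₀ S.len (setPre (u b) (l + 1) z) = endPoint l b z := by
    intro b z
    have hb : ∀ i < m, endWord l b i = setPre w₀ S.len (cond b a₁ a₀) i := fun i hi => by
      cases b
      exacts [hl₀ i hi, hl₁ i hi]
    funext i
    by_cases hi : i < S.len
    · have him : i < m := hi.trans_le ((le_max_right _ _).trans (le_max_right _ _))
      rw [setPre, if_pos hi, endPoint, setPre, if_pos (hi.trans_le hlen), hb i him, setPre,
        if_pos hi]
    · by_cases hil : i < l + 1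
      · rw [setPre, if_neg hi, setPre, if_pos hil, endPoint, setPre, if_pos hil]
        by_cases him : i < m
        · rw [hb i him, setPre, if_neg hi]
          exact if_pos him
        · exact if_neg him
      · simp [setPre, endPoint, hi, hil]
  let S' : Level s h (n + 1) :=
    { len := l + 1
      le_len := (((le_max_left _ _).trans (le_max_right _ _)).trans hml).trans (Nat.le_succ l)
      word := fun t => setPre (S.word (Fin.init t)) S.len (u (t (Fin.last n)))
      rel := fun t t' z => by
        rw [setPre_setPre _ _ _ hlen, setPre_setPre _ _ _ hlen]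
        have hmove : ∀ b, s (h (setPre w₀ S.len (setPre (u false) (l + 1) z)))
            (h (setPre w₀ S.len (setPre (u b) (l + 1) z))) := fun b => by
          cases b
          · exact s.refl _
          · rw [hedge, hedge]
            exact hh l z hlab
        exact s.trans (s.trans (S.rel _ (fun _ => false) _) (s.symm (hmove _)))
          (s.trans (hmove _) (S.rel (fun _ => false) _ _)) }
  refine ⟨S', hlen, ⟨u, fun t => rfl⟩, fun t t' hne p hp => ?_⟩
  cases ht : t (Fin.last n) <;> cases ht' : t' (Fin.last n) <;> simp [ht, ht'] at hne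
  · refine hgood (Fin.init t) (Fin.init t') p.1 p.2 ?_ ?_
    · simpa [S', ht] using hp.1
    · simpa [S', ht'] using hp.2
  · refine hsymm (p.2, p.1) (hgood (Fin.init t') (Fin.init t) p.2 p.1 ?_ ?_)
    · simpa [S', ht'] using hp.2
    · simpa [S', ht] using hp.1

/-- **The embedding.** A homomorphism with meagre pullback yields a continuous injective
reduction of eventual agreement. -/
theorem exists_embedding_of_hom [TopologicalSpace X] [T2Space X] (hc : Continuous h)
    (hh : ∀ n z, label n = true → s (h (endPoint n false z)) (h (endPoint n true z)))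
    (hR : IsMeagre {q : (ℕ → Bool) × (ℕ → Bool) | s (h q.1) (h q.2)}) :
    ∃ f : (ℕ → Bool) → X, Continuous f ∧ Function.Injective f ∧
      ∀ z z', eZero z z' ↔ s (f z) (f z') := by
  classical
  obtain ⟨T, hTo, hTd, hTc, hsub⟩ := mem_residual_iff.1 hR
  obtain ⟨W, hW⟩ := (hTc.insert univ).exists_eq_range (insert_nonempty _ _)
  have hWn : ∀ n, IsOpen (W n) ∧ Dense (W n) := fun n => by
    rcases (hW ▸ mem_range_self n : W n ∈ insert univ T) with h | h
    · rw [h]
      exact ⟨isOpen_univ, dense_univ⟩
    · exact ⟨hTo _ h, hTd _ h⟩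
  let K : Set ((ℕ → Bool) × (ℕ → Bool)) := {q | h q.1 = h q.2}
  have hK : IsClosed K := isClosed_eq (hc.comp continuous_fst) (hc.comp continuous_snd)
  have hKd : Dense Kᶜ :=
    dense_of_mem_residual (isMeagre_mono hR fun q (hq : h q.1 = h q.2) =>
      show s (h q.1) (h q.2) from hq ▸ s.refl _)
  let D : ℕ → Set ((ℕ → Bool) × (ℕ → Bool)) := fun n =>
    Nat.rec (Kᶜ ∩ (W 0 ∩ Prod.swap ⁻¹' W 0))
      (fun m Y => Y ∩ (W (m + 1) ∩ Prod.swap ⁻¹' W (m + 1))) n
  have hswap : ∀ n, IsOpen (W n ∩ Prod.swap ⁻¹' W n) ∧ Dense (W n ∩ Prod.swap ⁻¹' W n) := fun n =>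
    have hs : IsOpen (Prod.swap ⁻¹' W n) := (hWn n).1.preimage continuous_swap
    ⟨(hWn n).1.inter hs, (hWn n).2.inter_of_isOpen_left
      ((hWn n).2.preimage (Homeomorph.prodComm (ℕ → Bool) (ℕ → Bool)).isOpenMap) (hWn n).1⟩
  have hD : ∀ n, IsOpen (D n) ∧ Dense (D n) := fun n => by
    induction n with
    | zero => exact ⟨hK.isOpen_compl.inter (hswap 0).1,
        hKd.inter_of_isOpen_left (hswap 0).2 hK.isOpen_compl⟩
    | succ n ih => exact ⟨ih.1.inter (hswap _).1, ih.2.inter_of_isOpen_left (hswap _).2 ih.1⟩
  have hDsymm : ∀ n, ∀ p ∈ D n, p.swap ∈ D n := fun n => by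
    induction n with
    | zero =>
      exact fun p hp => ⟨fun hk => hp.1 hk.symm, hp.2.2, by simpa using hp.2.1⟩
    | succ n ih => exact fun p hp => ⟨ih p hp.1, hp.2.2, by simpa using hp.2.1⟩
  have hDK : ∀ n, D n ⊆ Kᶜ := fun n => by
    induction n with
    | zero => exact inter_subset_left
    | succ n ih => exact inter_subset_left.trans ih
  have hDW : ∀ m n, m ≤ n → D n ⊆ W m := fun m n hmn => by
    induction hmn with
    | refl =>
      cases m with
      | zero => exact fun p hp => hp.2.1
      | succ m => exact fun p hp => hp.2.1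
    | step _ ih => exact inter_subset_left.trans ih
  choose next hnext using fun n (S : Level s h n) =>
    exists_refine hh (hD n).1 (hD n).2 (hDsymm n) S
  let S : ∀ n, Level s h n := fun n =>
    Nat.rec ⟨0, le_rfl, fun _ _ => false, fun _ _ _ => s.refl _⟩ next n
  have hS : ∀ n, Refine (D n) (S n) (S (n + 1)) := fun n => hnext n (S n)
  let w : (ℕ → Bool) → ℕ → ℕ → Bool := fun z n => (S n).word fun i => z i
  let g : (ℕ → Bool) → ℕ → Bool := fun z i => w z (i + 1) i
  have hlen : ∀ m n, m ≤ n → (S m).len ≤ (S n).len := fun m n hmn => by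
    induction hmn with
    | refl => exact le_rfl
    | @step n _ ih => exact ih.trans (hS n).1
  have hchain : ∀ z m n, m ≤ n → ∀ i < (S m).len, w z n i = w z m i := fun z m n hmn => by
    induction hmn with
    | refl => exact fun i _ => rfl
    | @step n hmn ih =>
      intro i hi
      obtain ⟨u, hu⟩ := (hS n).2.1
      rw [show w z (n + 1) = setPre (w z n) (S n).len (u (z n)) from hu _]
      exact (if_pos (hi.trans_le (hlen m n hmn))).trans (ih i hi)
  have hmem : ∀ z n, g z ∈ cylinder (w z n) (S n).len := fun z n i hi => by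
    rcases le_total (i + 1) n with hin | hin
    · exact (hchain z _ _ hin i ((S (i + 1)).le_len)).symm
    · exact hchain z _ _ hin i hi
  have hdiff : ∀ z z' n, z n ≠ z' n → (g z, g z') ∈ D n := fun z z' n hne =>
    (hS n).2.2 (fun i => z i) (fun i => z' i) hne ⟨hmem z (n + 1), hmem z' (n + 1)⟩
  have hgc : Continuous g := continuous_pi fun i =>
    (continuous_of_discreteTopology (f := fun t => (S (i + 1)).word t i)).comp
      (continuous_pi fun l : Fin (i + 1) => continuous_apply (l : ℕ))
  refine ⟨h ∘ g, hc.comp hgc, fun z z' he => by_contra fun hne => ?_,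
    fun z z' => ⟨?_, fun hr => ?_⟩⟩
  · obtain ⟨n, hn⟩ := Function.ne_iff.1 hne
    exact hDK n (hdiff z z' n hn) he
  · rintro ⟨N, hN⟩
    have hsuff : ∀ n, N ≤ n → ∀ i, (S N).len ≤ i → i < (S n).len → w z n i = w z' n i := by
      intro n hn
      induction hn with
      | refl => exact fun i h1 h2 => absurd h2 (not_lt.2 h1)
      | @step n hn ih =>
        intro i h1 h2
        obtain ⟨u, hu⟩ := (hS n).2.1
        rw [show w z (n + 1) = setPre (w z n) (S n).len (u (z n)) from hu _,
          show w z' (n + 1) = setPre (w z' n) (S n).len (u (z' n)) from hu _, hN n hn]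
        by_cases hi : i < (S n).len
        · simpa [setPre, hi] using ih i h1 hi
        · simp [setPre, hi]
    have e : ∀ y : ℕ → Bool, (∀ i, (S N).len ≤ i → g y i = g z i) →
        g y = setPre (w y N) (S N).len (g z) := fun y hy => funext fun i => by
      by_cases hi : i < (S N).len
      · rw [setPre, if_pos hi]
        exact hmem y N i hi
      · rw [setPre, if_neg hi]
        exact hy i (not_lt.1 hi)
    have hz' : ∀ i, (S N).len ≤ i → g z' i = g z i := fun i hi => by
      have hi' : i < (S (max N (i + 1))).len :=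
        ((S (i + 1)).le_len).trans (hlen _ _ (le_max_right _ _))
      rw [hmem z _ i hi', hmem z' _ i hi', hsuff _ (le_max_left _ _) i hi hi']
    simp only [Function.comp_apply]
    rw [e z fun i _ => rfl, e z' hz']
    exact (S N).rel _ _ _
  · by_contra hno
    refine (hsub (mem_sInter.2 fun t ht => ?_) : (g z, g z') ∈ {q : (ℕ → Bool) × (ℕ → Bool) |
      s (h q.1) (h q.2)}ᶜ) hr
    obtain ⟨m, rfl⟩ : t ∈ range W := hW ▸ mem_insert_of_mem _ ht
    obtain ⟨n, hn, hne⟩ : ∃ n, m ≤ n ∧ z n ≠ z' n := by
      by_contra! hall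
      exact hno ⟨m, hall⟩
    exact hDW m n hn (hdiff z z' n hne)

end FA.HarringtonKechrisLouveau
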