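import Fermat.Agent.HarringtonKechrisLouveau.Approximations

/-!
# Smoothness or a homomorphism

Either the relation is smooth or a continuous map of Cantor space sends the ends of each edge to
related or unrelated points as its label requires.
-/

set_option autoImplicit false

universe u

namespace FA.HarringtonKechrisLouveau

open Set Topology Filter MeasureTheory FA.BorelCombinatorics

variable {X : Type u} [TopologicalSpace X] [PolishSpace X]

/-- A chain of approximations with configurations gives a homomorphism. -/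
theorem exists_hom_of_chain {Φ : Bool → (ℕ → ℕ) → X × X} {ψ : (ℕ → ℕ) → X}
    (hΦ : ∀ t, Continuous (Φ t)) (hψ : Continuous ψ) (a : ∀ n, Approx n)
    (hext : ∀ n, Extends (a n) (a (n + 1))) (hne : ∀ n, (configs Φ ψ (a n)).Nonempty) :
    ∃ h : (ℕ → Bool) → X, Continuous h ∧
      ∀ n z, (h (endPoint n false z), h (endPoint n true z)) ∈ range (Φ (label n)) := by
  let Ψ : (ℕ → Bool) → ℕ → ℕ := fun z i =>
    (a (i + 1)).1 (fun l => z l) ⟨i, Nat.lt_succ_self i⟩
  have hΨ : ∀ z N i (hi : i < N), (a N).1 (fun l => z l) ⟨i, hi⟩ = Ψ z i := fun z N i hi => by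
    induction N, Nat.succ_le_of_lt hi using Nat.le_induction with
    | base => rfl
    | succ N hN ih => exact ((hext N).1 (fun l => z l) ⟨i, hN⟩).trans (ih hN)
  have hcont : Continuous Ψ := continuous_pi fun i =>
    (continuous_of_discreteTopology
      (f := fun u : Fin (i + 1) → Bool => (a (i + 1)).1 u ⟨i, Nat.lt_succ_self i⟩)).comp
      (continuous_pi fun l : Fin (i + 1) => continuous_apply (l : ℕ))
  refine ⟨ψ ∘ Ψ, hψ.comp hcont, fun n z => ?_⟩
  let e : ∀ N, n < N → Edge N := fun N hN => (⟨n, hN⟩, fun l => z l)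
  have hvert : ∀ N (hN : n < N) (t : Bool),
      (e N hN).vertex t = fun l : Fin N => endPoint n t z l := fun N hN t => funext fun l => by
    simp [e, Edge.vertex, endPoint, setPre, Fin.le_def]
  let W : ℕ → ℕ := fun i => (a (n + i + 1)).2 (e _ (by omega)) ⟨i, by omega⟩
  have hW : ∀ i N (hN : n + i + 1 ≤ N),
      (a N).2 (e N (by omega)) ⟨i, by omega⟩ = W i := fun i N hN => by
    induction N, hN using Nat.le_induction with
    | base => rfl
    | succ N hN ih =>
      have he : ((e N (by omega)).1.castSucc, Fin.snoc (e N (by omega)).2 (z N)) =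
          e (N + 1) (by omega) := by
        refine Prod.ext rfl (funext fun l => ?_)
        induction l using Fin.lastCases with
        | last => simp [e]
        | cast l => simp [e]
      rw [← he]
      exact ((hext N).2 _ (z N) ⟨i, by omega⟩).trans ih
  choose γ hγ using hne
  have hlimv : ∀ y : ℕ → Bool,
      Tendsto (fun k => (γ (n + k + 1)).1 fun l => y l) atTop (𝓝 (Ψ y)) := fun y =>
    tendsto_pi_nhds.2 fun i => tendsto_const_nhds.congr'
      (eventually_atTop.2 ⟨i, fun k hk =>
        (((hγ (n + k + 1)).1 (fun l => y l) ⟨i, by omega⟩).trans (hΨ y _ i (by omega))).symm⟩)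
  have hlime : Tendsto (fun k => (γ (n + k + 1)).2 (e _ (by omega))) atTop (𝓝 W) :=
    tendsto_pi_nhds.2 fun i => tendsto_const_nhds.congr'
      (eventually_atTop.2 ⟨i, fun k hk =>
        (((hγ (n + k + 1)).2.1 (e _ (by omega)) ⟨i, by omega⟩).trans (hW i _ (by omega))).symm⟩)
  refine ⟨W, tendsto_nhds_unique (((hΦ _).tendsto W).comp hlime) ?_⟩
  have h := ((hψ.tendsto _).comp (hlimv (endPoint n false z))).prodMk_nhds
    ((hψ.tendsto _).comp (hlimv (endPoint n true z)))
  refine h.congr fun k => ?_
  have := (hγ (n + k + 1)).2.2 (e _ (by omega))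
  rw [hvert, hvert] at this
  exact this.symm

variable [MeasurableSpace X] [BorelSpace X]

/-- **Miller's dichotomy.** A Borel equivalence relation is smooth or receives a homomorphism
respecting the labels. -/
theorem isSmooth_or_hom (s : Setoid X) (hs : MeasurableSet {p : X × X | s p.1 p.2}) :
    IsSmooth s ∨ ∃ h : (ℕ → Bool) → X, Continuous h ∧
      ∀ n z, (s (h (endPoint n false z)) (h (endPoint n true z)) ↔ label n = true) := by
  classical
  by_cases hone : ∀ x y, s x y
  · exact .inl ⟨fun _ _ => false, measurable_const, fun x y => iff_of_true (hone x y) rfl⟩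
  push Not at hone
  obtain ⟨x₀, y₀, hne₀⟩ := hone
  have : Nonempty X := ⟨x₀⟩
  obtain ⟨ψ, hψ, hsurj⟩ := PolishSpace.exists_nat_nat_continuous_surjective X
  have hG : ∀ t : Bool, AnalyticSet {p : X × X | s p.1 p.2 ↔ t = true} ∧
      {p : X × X | s p.1 p.2 ↔ t = true}.Nonempty := fun t => by
    cases t
    · refine ⟨?_, (x₀, y₀), by simpa using hne₀⟩
      convert hs.compl.analyticSet using 1
      ext p
      simp
    · refine ⟨?_, (x₀, x₀), by simp⟩
      convert hs.analyticSet using 1
      ext p
      simp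
  have hpar : ∀ t : Bool, ∃ φ : (ℕ → ℕ) → X × X, Continuous φ ∧
      range φ = {p : X × X | s p.1 p.2 ↔ t = true} := fun t => by
    obtain ⟨ha, hne⟩ := hG t
    rw [AnalyticSet] at ha
    exact ha.resolve_left hne.ne_empty
  choose Φ hΦ hrange using hpar
  have hrange' : ∀ t x y, (x, y) ∈ range (Φ t) ↔ (s x y ↔ t = true) := fun t x y => by
    rw [hrange]
    rfl
  let a₀ : Approx 0 := (fun _ => Fin.elim0, fun e => e.1.elim0)
  by_cases h0 : Small s ψ (configs Φ ψ a₀)
  · obtain ⟨B, hB, hbad⟩ := h0
    refine .inl ⟨fun x k => decide (x ∈ B k), measurable_pi_lambda _ fun k =>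
      measurable_to_bool (by convert (hB k).1 using 1; ext x; simp), fun x y => ?_⟩
    refine ⟨fun h => funext fun k => decide_eq_decide.2 ((hB k).2 x y h), fun h => ?_⟩
    by_contra hns
    obtain ⟨p, rfl⟩ := hsurj x
    refine hbad ((fun _ => p, fun e => e.1.elim0) : Config 0)
      ⟨fun _ i => i.elim0, fun e => e.1.elim0, fun e => e.1.elim0⟩
      ⟨fun _ => Sim.refl _ _, y, fun k => ?_, fun h' => hns (s.symm h')⟩
    exact (decide_eq_decide.1 (congrFun h k)).symm
  · have hstep : ∀ (n : ℕ) (a : {a : Approx n // ¬Small s ψ (configs Φ ψ a)}),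
        ∃ b : {b : Approx (n + 1) // ¬Small s ψ (configs Φ ψ b)}, Extends a.1 b.1 := fun n a => by
      obtain ⟨b, hb, hbig⟩ := exists_extension hs hψ hΦ hrange' a.2
      exact ⟨⟨b, hbig⟩, hb⟩
    choose next hnext using hstep
    let a : ∀ n, {a : Approx n // ¬Small s ψ (configs Φ ψ a)} := fun n => Nat.rec ⟨a₀, h0⟩ next n
    have hnem : ∀ n, (configs Φ ψ (a n).1).Nonempty := fun n =>
      nonempty_iff_ne_empty.2 fun h => (a n).2 ⟨fun _ => univ,
        fun _ => ⟨MeasurableSet.univ, fun _ _ _ => Iff.rfl⟩, by simp [h]⟩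
    obtain ⟨h, hc, hh⟩ := exists_hom_of_chain hΦ hψ (fun n => (a n).1)
      (fun n => hnext n (a n)) hnem
    exact .inr ⟨h, hc, fun n z => (hrange' _ _ _).1 (hh n z)⟩

end FA.HarringtonKechrisLouveau
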