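import Fermat.Agent.HarringtonKechrisLouveau.Homomorphism
import Fermat.Agent.SilverDichotomy.Mycielski

/-!
# The pulled back relation is meagre

Invariance under the edges labelled "related" makes each class meagre or comeagre, and the edges
labelled "unrelated" leave no comeagre class.
-/

set_option autoImplicit false

universe u

namespace FA.HarringtonKechrisLouveau

open Set Topology Filter MeasureTheory PiNat FA.SilverDichotomy

theorem setPre_setPre (p q z : ℕ → Bool) {m n : ℕ} (h : m ≤ n) :
    setPre (setPre p m q) n z = setPre p m (setPre q n z) := by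
  funext i
  by_cases hi : i < m
  · simp [setPre, hi, hi.trans_le h]
  · by_cases hi' : i < n <;> simp [setPre, hi, hi']

theorem setPre_mem_cylinder (p : ℕ → Bool) (n : ℕ) (z : ℕ → Bool) :
    setPre p n z ∈ cylinder p n :=
  fun _ hi => if_pos hi

theorem continuous_setPre (p : ℕ → Bool) (n : ℕ) : Continuous (setPre p n) :=
  continuous_pi fun i => by
    by_cases hi : i < n
    · simpa [setPre, hi] using continuous_const
    · simpa [setPre, hi] using continuous_apply i

theorem isOpenMap_setPre (p : ℕ → Bool) (n : ℕ) : IsOpenMap (setPre p n) := by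
  intro U hU
  refine isOpen_iff_forall_mem_open.2 fun y ⟨z, hz, hzy⟩ => ?_
  obtain ⟨m, hm⟩ := exists_node_subset hU hz
  refine ⟨cylinder y (max m n), fun y' hy' => ⟨setPre z n y', hm fun i hi => ?_, ?_⟩,
    isOpen_cylinder _ _ _, self_mem_cylinder _ _⟩
  · by_cases hin : i < n
    · simp [setPre, hin]
    · rw [setPre, if_neg hin, hy' i (lt_max_of_lt_left hi), ← hzy, setPre, if_neg hin]
  · funext i
    by_cases hin : i < n
    · rw [setPre, if_pos hin, hy' i (lt_max_of_lt_right hin), ← hzy, setPre, if_pos hin]
    · simp [setPre, hin]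

theorem isMeagre_preimage_endPoint {A : Set (ℕ → Bool)} (hA : IsMeagre A) (n : ℕ) (t : Bool) :
    IsMeagre (endPoint n t ⁻¹' A) :=
  hA.preimage_of_isOpenMap (continuous_setPre _ _) (isOpenMap_setPre _ _)

/-- A set comeagre in a cylinder contains almost all of an end lying above it. -/
theorem isMeagre_endPoint_notMem {A : Set (ℕ → Bool)} {p : ℕ → Bool} {m n : ℕ} {t : Bool}
    (hA : IsMeagre (cylinder p m \ A)) (hmn : m ≤ n)
    (hp : ∀ i < m, endWord n t i = p i) : IsMeagre {z | endPoint n t z ∉ A} :=
  isMeagre_mono (isMeagre_preimage_endPoint hA n t) fun _ hz =>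
    ⟨fun i hi => (if_pos (by omega)).trans (hp i hi), hz⟩

/-- A set with the property of Baire which is not meagre is comeagre in some cylinder. -/
theorem exists_comeagre_cylinder {A : Set (ℕ → Bool)} (hA : BaireMeasurableSet A)
    (hne : ¬IsMeagre A) : ∃ p m, IsMeagre (cylinder p m \ A) := by
  obtain ⟨O, hO, hAO⟩ := hA.residualEq_isOpen
  rcases O.eq_empty_or_nonempty with rfl | ⟨p, hp⟩
  · exact absurd (by simpa using isMeagre_diff_of_residualEq hAO) hne
  obtain ⟨m, hm⟩ := exists_node_subset hO hp
  exact ⟨p, m, isMeagre_mono (isMeagre_diff_of_residualEq hAO.symm) (sdiff_subset_sdiff_left hm)⟩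

/-- **The pullback is meagre.** -/
theorem isMeagre_pullback {X : Type u} [TopologicalSpace X] [PolishSpace X] {s : Setoid X}
    [MeasurableSpace X] [BorelSpace X] (hs : MeasurableSet {p : X × X | s p.1 p.2})
    {h : (ℕ → Bool) → X} (hc : Continuous h)
    (hh : ∀ n z, (s (h (endPoint n false z)) (h (endPoint n true z)) ↔ label n = true)) :
    IsMeagre {q : (ℕ → Bool) × (ℕ → Bool) | s (h q.1) (h q.2)} := by
  have hR : MeasurableSet {q : (ℕ → Bool) × (ℕ → Bool) | s (h q.1) (h q.2)} :=
    ((hc.measurable.comp measurable_fst).prodMk (hc.measurable.comp measurable_snd)) hs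
  refine isMeagre_of_sections hR.baireMeasurableSet (Eventually.of_forall fun x => ?_)
  by_contra hne
  have hS : BaireMeasurableSet {y | s (h x) (h y)} :=
    (((measurable_const (a := h x)).prodMk hc.measurable) hs).baireMeasurableSet
  obtain ⟨p, m, hpm⟩ := exists_comeagre_cylinder hS hne
  have hco : IsMeagre {y | s (h x) (h y)}ᶜ := by
    by_contra hne'
    obtain ⟨q, m', hqm⟩ := exists_comeagre_cylinder hS.compl hne'
    obtain ⟨n, hn, hlab, hp, hq⟩ := exists_level true (max m m') p q
    obtain ⟨z, hz⟩ : ∃ z, z ∉ {z | endPoint n false z ∉ {y | s (h x) (h y)}} ∪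
        {z | endPoint n true z ∉ {y | s (h x) (h y)}ᶜ} := by
      by_contra! hall
      exact SilverDichotomy.not_isMeagre_of_isOpen isOpen_univ univ_nonempty
        (isMeagre_mono (isMeagre_union_pair
        (isMeagre_endPoint_notMem hpm ((le_max_left _ _).trans hn)
          fun i hi => hp i (lt_max_of_lt_left hi))
        (isMeagre_endPoint_notMem hqm ((le_max_right _ _).trans hn)
          fun i hi => hq i (lt_max_of_lt_right hi))) fun z _ => hall z)
    simp only [mem_union, mem_ofPred_eq, mem_compl_iff, not_or, not_not] at hz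
    exact hz.2 (s.trans hz.1 ((hh n z).2 hlab))
  obtain ⟨n, -, hlab, -, -⟩ := exists_level false 0 p p
  obtain ⟨z, hz⟩ : ∃ z, z ∉ endPoint n false ⁻¹' {y | s (h x) (h y)}ᶜ ∪
      endPoint n true ⁻¹' {y | s (h x) (h y)}ᶜ := by
    by_contra! hall
    exact SilverDichotomy.not_isMeagre_of_isOpen isOpen_univ univ_nonempty
      (isMeagre_mono (isMeagre_union_pair
      (isMeagre_preimage_endPoint hco n false) (isMeagre_preimage_endPoint hco n true))
      fun z _ => hall z)
  simp only [mem_union, mem_preimage, mem_compl_iff, mem_ofPred_eq, not_or, not_not] at hz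
  have := (hh n z).1 (s.trans (s.symm hz.1) hz.2)
  simp [hlab] at this

end FA.HarringtonKechrisLouveau
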