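import Fermat.Agent.Coanalytic.Prewellorder
import Fermat.Agent.BorelCombinatorics.EZero
import Fermat.Agent.SilverDichotomy.Category

/-!
# Invariant separation

Analytic sets with no related points are separated by an invariant Borel set.
-/

set_option autoImplicit false

universe u

namespace FA.HarringtonKechrisLouveau

open Set Topology MeasureTheory

variable {X : Type u}

/-- The saturation of a set. -/
def saturation (s : Setoid X) (A : Set X) : Set X :=
  {y | ∃ x ∈ A, s x y}

/-- Membership in an invariant set depends on the class only. -/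
def IsInvariant (s : Setoid X) (B : Set X) : Prop :=
  ∀ x y, s x y → (x ∈ B ↔ y ∈ B)

theorem subset_saturation (s : Setoid X) (A : Set X) : A ⊆ saturation s A :=
  fun x hx => ⟨x, hx, s.refl x⟩

variable [TopologicalSpace X] [PolishSpace X] [MeasurableSpace X] [BorelSpace X]

omit [MeasurableSpace X] [BorelSpace X] in
/-- The points related by an analytic relation to some point of an analytic set form an analytic
set. -/
theorem analyticSet_relImage {R : Set (X × X)} (hR : AnalyticSet R) {A : Set X}
    (hA : AnalyticSet A) : AnalyticSet {y | ∃ x ∈ A, (x, y) ∈ R} := by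
  have h : AnalyticSet (Prod.fst ⁻¹' A ∩ R) := by
    rw [inter_eq_iInter]
    exact AnalyticSet.iInter fun b => by
      cases b
      exacts [hR, hA.preimage continuous_fst]
  convert h.image_of_continuous continuous_snd using 1
  ext y
  simp

theorem analyticSet_saturation {s : Setoid X} (hs : MeasurableSet {p : X × X | s p.1 p.2})
    {A : Set X} (hA : AnalyticSet A) : AnalyticSet (saturation s A) :=
  analyticSet_relImage hs.analyticSet hA

/-- **Invariant separation.** -/
theorem exists_invariant_separation {s : Setoid X} (hs : MeasurableSet {p : X × X | s p.1 p.2})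
    {A C : Set X} (hA : AnalyticSet A) (hC : AnalyticSet C)
    (hAC : ∀ a ∈ A, ∀ c ∈ C, ¬s a c) :
    ∃ B, MeasurableSet B ∧ IsInvariant s B ∧ A ⊆ B ∧ Disjoint B C := by
  classical
  let C' := saturation s C
  have hC' : AnalyticSet C' := analyticSet_saturation hs hC
  have key : ∀ S : {S : Set X // AnalyticSet S ∧ Disjoint (saturation s S) C'},
      ∃ B : {S : Set X // AnalyticSet S ∧ Disjoint (saturation s S) C'},
        MeasurableSet B.1 ∧ saturation s S.1 ⊆ B.1 := by
    rintro ⟨S, hS, hd⟩
    obtain ⟨B, hSB, hBd, hBm⟩ :=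
      (analyticSet_saturation hs hS).measurablySeparable hC' hd
    refine ⟨⟨B, hBm.analyticSet, Set.disjoint_left.2 ?_⟩, hBm, hSB⟩
    rintro y ⟨x, hx, hxy⟩ ⟨c, hc, hcy⟩
    exact Set.disjoint_left.1 hBd ⟨c, hc, s.trans hcy (s.symm hxy)⟩ hx
  have h0 : Disjoint (saturation s A) C' := Set.disjoint_left.2 fun y ⟨x, hx, hxy⟩ ⟨c, hc, hcy⟩ =>
    hAC x hx c hc (s.trans hxy (s.symm hcy))
  choose next hnm hns using key
  let S : ℕ → {S : Set X // AnalyticSet S ∧ Disjoint (saturation s S) C'} := fun n =>
    Nat.rec ⟨A, hA, h0⟩ (fun _ S => next S) n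
  refine ⟨⋃ n, (S (n + 1)).1, MeasurableSet.iUnion fun n => hnm (S n), ?_, ?_, ?_⟩
  · have h : ∀ x y, s x y → x ∈ ⋃ n, (S (n + 1)).1 → y ∈ ⋃ n, (S (n + 1)).1 := by
      intro x y hxy hx
      obtain ⟨n, hn⟩ := mem_iUnion.1 hx
      exact mem_iUnion.2 ⟨n + 1, hns (S (n + 1)) ⟨x, hn, hxy⟩⟩
    exact fun x y hxy => ⟨h x y hxy, h y x (s.symm hxy)⟩
  · exact fun x hx => mem_iUnion.2 ⟨0, hns (S 0) (subset_saturation s A hx)⟩
  · refine Set.disjoint_left.2 fun x hx hxC => ?_
    obtain ⟨n, hn⟩ := mem_iUnion.1 hx
    exact Set.disjoint_left.1 (S (n + 1)).2.2 (subset_saturation s _ hn)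
      (subset_saturation s C hxC)

end FA.HarringtonKechrisLouveau
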